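import Fermat.Statements.S02

set_option autoImplicit false
open FreyPackage

namespace Fermat.Agent.S02

/-- Coprime case, `b` even, `a` odd. -/
theorem frey_of_coprime_b_even {a b c : ℤ} (ha : a ≠ 0) (hb : b ≠ 0) (hc : c ≠ 0) (p : ℕ)
    (pp : p.Prime) (hp5 : 5 ≤ p) (H : a ^ p + b ^ p = c ^ p) (hab : gcd a b = 1)
    (hbe : (2 : ℤ) ∣ b) : Nonempty FreyPackage := by
  have hpodd : Odd p := pp.odd_of_ne_two (by omega)
  have hb2 : (b : ZMod 2) = 0 := (ZMod.intCast_zmod_eq_zero_iff_dvd b 2).2 hbe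
  -- a is odd
  have haodd : ¬ (2 : ℤ) ∣ a := by
    intro h2a
    have : (2 : ℤ) ∣ gcd a b := dvd_gcd h2a hbe
    rw [hab] at this
    exact absurd this (by decide)
  have ha4 : a % 4 = 1 ∨ a % 4 = 3 := by
    have : a % 2 = 1 := by
      rcases Int.emod_two_eq_zero_or_one a with h | h
      · exact absurd (Int.dvd_of_emod_eq_zero h) haodd
      · exact h
    omega
  rcases ha4 with h1 | h3
  · -- use (-a, -b, -c)
    refine ⟨⟨-a, -b, -c, neg_ne_zero.2 ha, neg_ne_zero.2 hb, neg_ne_zero.2 hc, p, pp, hp5, ?_, ?_,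
      ?_, ?_⟩⟩
    · rw [hpodd.neg_pow, hpodd.neg_pow, hpodd.neg_pow, ← H]; ring
    · rw [gcd_neg, neg_gcd]; exact hab
    · have : ((-a : ℤ) : ZMod 4) = ((3 : ℤ) : ZMod 4) := by
        rw [ZMod.intCast_eq_intCast_iff_dvd_sub]
        have : (4 : ℤ) ∣ (3 - -a) := by omega
        exact_mod_cast this
      simpa using this
    · have : (2 : ℤ) ∣ -b := (dvd_neg).2 hbe
      exact (ZMod.intCast_zmod_eq_zero_iff_dvd (-b) 2).2 this
  · refine ⟨⟨a, b, c, ha, hb, hc, p, pp, hp5, H, hab, ?_, hb2⟩⟩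
    have : ((a : ℤ) : ZMod 4) = ((3 : ℤ) : ZMod 4) := by
      rw [ZMod.intCast_eq_intCast_iff_dvd_sub]
      have : (4 : ℤ) ∣ (3 - a) := by omega
      exact_mod_cast this
    simpa using this

/-- Coprime case. -/
theorem frey_of_coprime {a b c : ℤ} (ha : a ≠ 0) (hb : b ≠ 0) (hc : c ≠ 0) (p : ℕ)
    (pp : p.Prime) (hp5 : 5 ≤ p) (H : a ^ p + b ^ p = c ^ p) (hab : gcd a b = 1) :
    Nonempty FreyPackage := by
  have hpodd : Odd p := pp.odd_of_ne_two (by omega)
  have hp0 : p ≠ 0 := by omega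
  have hppos : 0 < p := by omega
  by_cases hbe : (2 : ℤ) ∣ b
  · exact frey_of_coprime_b_even ha hb hc p pp hp5 H hab hbe
  by_cases hae : (2 : ℤ) ∣ a
  · refine frey_of_coprime_b_even hb ha hc p pp hp5 (by rw [add_comm]; exact H) ?_ hae
    rw [gcd_comm]; exact hab
  · -- both odd, so c is even
    have hce : (2 : ℤ) ∣ c := by
      have h2 : Prime (2 : ℤ) := Int.prime_two
      have hao : Odd a := by
        rw [← Int.not_even_iff_odd, even_iff_two_dvd]; exact hae
      have hbo : Odd b := by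
        rw [← Int.not_even_iff_odd, even_iff_two_dvd]; exact hbe
      have : Even (c ^ p) := by
        rw [← H]
        exact (hao.pow).add_odd (hbo.pow)
      have : Even c := (Int.even_pow.1 this).1
      exact even_iff_two_dvd.1 this
    -- a^p + (-c)^p = (-b)^p
    refine frey_of_coprime_b_even ha (neg_ne_zero.2 hc) (neg_ne_zero.2 hb) p pp hp5 ?_ ?_
      ((dvd_neg).2 hce)
    · rw [hpodd.neg_pow, hpodd.neg_pow, ← H]; ring
    · rw [gcd_neg, ← gcdab_eq_gcdac hppos H]; exact hab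

theorem result (a b c : ℤ) (ha : a ≠ 0) (hb : b ≠ 0) (hc : c ≠ 0) (p : ℕ) (pp : p.Prime) (hp5 : 5 ≤ p) (H : a ^ p + b ^ p = c ^ p) : Nonempty FreyPackage := by
  have hp0 : p ≠ 0 := by omega
  -- divide through by gcd a b
  have hd0 : (gcd a b : ℤ) ≠ 0 := by
    intro h
    rw [gcd_eq_zero_iff] at h
    exact ha h.1
  obtain ⟨a', ha'⟩ : gcd a b ∣ a := gcd_dvd_left a b
  obtain ⟨b', hb'⟩ : gcd a b ∣ b := gcd_dvd_right a b
  have hdc : gcd a b ∣ c := by
    rw [← Int.pow_dvd_pow_iff hp0, ← H]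
    exact dvd_add (pow_dvd_pow_of_dvd (gcd_dvd_left a b) p) (pow_dvd_pow_of_dvd (gcd_dvd_right a b) p)
  obtain ⟨c', hc'⟩ := hdc
  set d := gcd a b with hd
  have ha'0 : a' ≠ 0 := by
    rintro rfl; apply ha; rw [ha']; simp
  have hb'0 : b' ≠ 0 := by
    rintro rfl; apply hb; rw [hb']; simp
  have hc'0 : c' ≠ 0 := by
    rintro rfl; apply hc; rw [hc']; simp
  have H' : a' ^ p + b' ^ p = c' ^ p := by
    have hdp : d ^ p ≠ 0 := pow_ne_zero p hd0
    apply mul_left_cancel₀ hdp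
    rw [mul_add, ← mul_pow, ← mul_pow, ← mul_pow, ← ha', ← hb', ← hc']
    exact H
  have hab' : gcd a' b' = 1 := by
    have h1 : gcd (d * a') (d * b') = normalize d * gcd a' b' := gcd_mul_left d a' b'
    rw [← ha', ← hb', ← hd] at h1
    have hnd : normalize d = d := by rw [hd]; exact normalize_gcd a b
    rw [hnd] at h1
    have : d * 1 = d * gcd a' b' := by rw [mul_one]; exact h1
    exact (mul_left_cancel₀ hd0 this).symm
  exact frey_of_coprime ha'0 hb'0 hc'0 p pp hp5 H' hab'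

end Fermat.Agent.S02
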