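-- S05: the mod-p Galois representation of the Frey curve is unramified at every prime q ≠ 2, p.
-- Elementary proof (no Tate curve): x-coordinate addition/subtraction identities + valuations.
-- Pieces: XIdent/XInst/XGalois (helper29), Inertia/Level (helper9), KernelRed (helper27),
-- FreyArith (helper4), Assembly (helper6), XData/Steps/Glue/Main/Final (helper5).
import Fermat.Statements.S05
import Fermat.Agent.S05.Final
import Fermat.Agent.S05.Assembly

set_option autoImplicit false
open WeierstrassCurve WeierstrassCurve.Affine WeierstrassCurve.Affine.Point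
open CuspForm ModularFormClass UpperHalfPlane
open FreyPackage

namespace Fermat.Agent.S05

theorem result (P : FreyPackage) {q : ℕ} (hq : q.Prime) (hq2 : q ≠ 2) (hqp : q ≠ P.p) : P.GaloisRepUnramifiedAt q := by
  refine Fermat.Agent.H6.h6_unramified_of_torsion_fixed P ?_ hq hq2 hqp
  intro D A h2 hal hal0 hbe hdisc p hpp hp5 hp π hπ σK σG hσxi hσom hσ0 hσv hσm hσπ Pt hpP
  exact H5.torsion_fixed D A.valuation h2 hal hal0 hbe hdisc hpp hp5 hp π hπ σK σG hσxi hσom hσ0
    hσv hσm hσπ hpP

end Fermat.Agent.S05
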