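-- S10: the mod-p representation of the Frey curve has no Galois-stable cofixed line, p ∈ {5,7,13}.
-- Proof: a Frey package with p ∈ {5, 7, 13} contradicts Fermat's Last Theorem for exponent p, which
-- is proved here by Kummer's method (T-Kum): case I by Sophie Germain (helper16), case II by
-- descent in the PID 𝓞(ℚ(ζ_p)) (helper4, helper26, helper11; PID by helper12) with Kummer's lemma
-- (helper7, helper1, helper8, helper13, helper4).
import Fermat.Statements.S10
import Fermat.Agent.Kum.Final
import Fermat.Agent.Kum.KLAssembly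
import Fermat.Agent.Kummer.PID
import Fermat.Agent.Kummer.SophieGermain

set_option autoImplicit false
open WeierstrassCurve WeierstrassCurve.Affine WeierstrassCurve.Affine.Point
open CuspForm ModularFormClass UpperHalfPlane
open FreyPackage

namespace Fermat.Agent.S10

theorem result (P : FreyPackage) (hp : P.p = 5 ∨ P.p = 7 ∨ P.p = 13) : ¬ HasGaloisStableCofixedLine (K := AlgebraicClosure ℚ) ℚ P.freyCurve P.p := by
  exfalso
  rcases hp with hp | hp | hp
  · haveI : Fact (Nat.Prime 5) := ⟨by norm_num⟩
    haveI : IsCyclotomicExtension {5} ℚ (CyclotomicField 5 ℚ) :=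
      CyclotomicField.isCyclotomicExtension 5 ℚ
    exact Fermat.Agent.H4Kum.h4kum_freyPackage_false_of_eq P hp
      (Fermat.Agent.H4Kum.h4kum_noCoprimeSolution 5 (by norm_num)
        Fermat.Agent.SG.h16_caseI_five (CyclotomicField 5 ℚ) Fermat.Agent.Kummer.pid_five
        (Fermat.Agent.H7KL.kummerLemma_five (CyclotomicField 5 ℚ)))
  · haveI : Fact (Nat.Prime 7) := ⟨by norm_num⟩
    haveI : IsCyclotomicExtension {7} ℚ (CyclotomicField 7 ℚ) :=
      CyclotomicField.isCyclotomicExtension 7 ℚ
    exact Fermat.Agent.H4Kum.h4kum_freyPackage_false_of_eq P hp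
      (Fermat.Agent.H4Kum.h4kum_noCoprimeSolution 7 (by norm_num)
        Fermat.Agent.SG.h16_caseI_seven (CyclotomicField 7 ℚ) Fermat.Agent.Kummer.pid_seven
        (Fermat.Agent.H7KL.kummerLemma_seven (CyclotomicField 7 ℚ)))
  · haveI : Fact (Nat.Prime 13) := ⟨by norm_num⟩
    haveI : IsCyclotomicExtension {13} ℚ (CyclotomicField 13 ℚ) :=
      CyclotomicField.isCyclotomicExtension 13 ℚ
    exact Fermat.Agent.H4Kum.h4kum_freyPackage_false_of_eq P hp
      (Fermat.Agent.H4Kum.h4kum_noCoprimeSolution 13 (by norm_num)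
        Fermat.Agent.SG.h16_caseI_thirteen (CyclotomicField 13 ℚ) Fermat.Agent.Kummer.pid_thirteen
        (Fermat.Agent.H7KL.kummerLemma_thirteen (CyclotomicField 13 ℚ)))

end Fermat.Agent.S10
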