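-- S11: the mod-11 representation of the Frey curve has no Galois-stable cofixed line.
-- Proof: a Frey package with p = 11 contradicts Fermat's Last Theorem for exponent 11, which is
-- proved here by Kummer's method (T-Kum): case I by Sophie Germain (helper16), case II by descent
-- in the PID 𝓞(ℚ(ζ₁₁)) (helper4, helper26, helper11; PID by helper12) with Kummer's lemma
-- (helper7, helper1, helper8, helper13, helper4).
import Fermat.Statements.S11
import Fermat.Agent.Kum.Final
import Fermat.Agent.Kum.KLAssembly
import Fermat.Agent.Kummer.PID11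
import Fermat.Agent.Kummer.SophieGermain

set_option autoImplicit false
open WeierstrassCurve WeierstrassCurve.Affine WeierstrassCurve.Affine.Point
open CuspForm ModularFormClass UpperHalfPlane
open FreyPackage

namespace Fermat.Agent.S11

theorem result (P : FreyPackage) (hp : P.p = 11) : ¬ HasGaloisStableCofixedLine (K := AlgebraicClosure ℚ) ℚ P.freyCurve P.p := by
  exfalso
  haveI : Fact (Nat.Prime 11) := ⟨by norm_num⟩
  haveI : IsCyclotomicExtension {11} ℚ (CyclotomicField 11 ℚ) :=
    CyclotomicField.isCyclotomicExtension 11 ℚ
  exact Fermat.Agent.H4Kum.h4kum_freyPackage_false_of_eq P hp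
    (Fermat.Agent.H4Kum.h4kum_noCoprimeSolution 11 (by norm_num)
      Fermat.Agent.SG.h16_caseI_eleven (CyclotomicField 11 ℚ) Fermat.Agent.Kummer.pid_eleven
      (Fermat.Agent.H7KL.kummerLemma_eleven (CyclotomicField 11 ℚ)))

end Fermat.Agent.S11
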