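-- S13 (row 12): if the mod-`p` representation of the Frey curve is reducible, it has a
-- Galois-stable cofixed line.  Final assembly (helper17) of the T-Ell pieces:
-- DP, Card (helper21 / helper3), L2u (helper27), L2r (helper25 / helper9), LQ = S05,
-- LP (helper25, helper16, helper4), BRex (helper15, helper22), FIN (helper26).
import Fermat.Statements.S13
import Fermat.Agent.S05
import Fermat.Agent.TEll.Fin
import Fermat.Agent.TEll.DPCard
import Fermat.Agent.TEll.L2u
import Fermat.Agent.TEll.L2rFrey
import Fermat.Agent.TEll.LPFinal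
import Fermat.Agent.TEll.BR2
import Fermat.Agent.S54.Frobenius

set_option autoImplicit false
open WeierstrassCurve WeierstrassCurve.Affine WeierstrassCurve.Affine.Point
open CuspForm ModularFormClass UpperHalfPlane
open FreyPackage

namespace Fermat.Agent.S13

theorem result (P : FreyPackage) (hred : ¬ GaloisRepIsIrreducible (K := AlgebraicClosure ℚ) ℚ P.freyCurve P.p) : HasGaloisStableCofixedLine (K := AlgebraicClosure ℚ) ℚ P.freyCurve P.p := by
  exact Fermat.Agent.TEll.h26_s13_of_pieces P
    (Fermat.Agent.H21DP.h21_DP P) (Fermat.Agent.H21DP.h21_Card P)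
    (Fermat.Agent.H27L2.h27_L2u P) (Fermat.Agent.H25R.h25r_L2r P)
    (fun _ hq hq2 hqp => Fermat.Agent.S05.result P hq hq2 hqp)
    (Fermat.Agent.H25L.h25l_LP_frey P) Fermat.Agent.H15BR.h15_BRex
    (fun _ hq => Fermat.Agent.H9.h9_exists_valuationSubring_liesOver hq) hred

end Fermat.Agent.S13
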