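import Fermat.Statements.S14
import Fermat.Agent.CFT.S14Cond
import Fermat.Agent.CFT.CR.Main

set_option autoImplicit false
open ExtCitation

namespace Fermat.Agent.S14

theorem result {p : ℕ} [Fact p.Prime] (h3 : 3 ≤ p) :
    ExtCitation.ExtVanishingCts p := by
  exact H14CFT.h14_s14_of_twoPrime p h3 (H3CR.h3cr_twoPrimeRelation p)

end Fermat.Agent.S14
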