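-- S21 (row 20): Eichler-Shimura, the pair of period maps is injective with image the parabolic
-- homomorphisms.  T-RR: E1 (helper21) + E2 (helper16) + E3 (Riemann-Roch + dictionary, see S20).
import Fermat.Statements.S21
import Fermat.Agent.RR.E1Final
import Fermat.Agent.RR.E3Defs
import Fermat.Agent.RR.DictMain4
import Fermat.Agent.RR.E3Bridge

set_option autoImplicit false
open ModularCurve

namespace Fermat.Agent.S21

theorem result (N : ℕ) [NeZero N] :
    Function.Injective (ModularCurve.periodHomPair N)
      ∧ LinearMap.range (ModularCurve.periodHomPair N)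
          = ModularCurve.Period.parabolicHoms ℂ (CongruenceSubgroup.Gamma0 N) ℂ := by
  exact H21E1.S21_of_E3 N (H2E3.genusFormula_le_of N (H24D.dict N) (H2E3.h2e3_bridge N))

end Fermat.Agent.S21
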