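import Fermat.Statements.S23
import Fermat.Agent.H23.GS
import Fermat.Agent.H23.DescentS22

/-!
# S23: `S₂(Γ₀(N))` has an integral structure

Proof: the Hecke algebra is a finitely generated `ℤ`-module (S22), and the space of cusp forms is
stable under `Aut(ℂ)` acting on `q`-expansions (`H23.galois_stable`); the descent argument
(`H23.hasIntegralStructure_of_galois`) then produces a basis with integral `q`-expansions.
-/

set_option autoImplicit false
open CuspForm

namespace Fermat.Agent.S23

theorem result (N : ℕ) [NeZero N] : CuspForm.HasIntegralStructure N 2 := by
  exact H23.hasIntegralStructure_of_galois N (fun σ f => H23.galois_stable N σ f)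

end Fermat.Agent.S23
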