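-- S16 (row 15): the index of the Eisenstein ideal in the integral Hecke algebra of weight 2 and
-- prime level p is (p - 1) / gcd (p - 1, 12).
-- RED (helper26): T/I = ℤ/m, duality with the lattice of integral cusp forms.
-- (A) lower bound (coordinator helper21): Dedekind–Rademacher homomorphism + Eichler–Shimura (S21)
--     + S23; slices by helper6, 8, 15, 22, 23, 27, 29, 11, 13.
-- (B) upper bound (coordinator helper4): B1 (helper16), B2 (helper12 + helper11), B3 (helper19),
--     Eisenstein series (helper10 + helper22), BRIDGE (helper13, helper23, helper11), S28 internals.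
import Fermat.Statements.S16
import Fermat.Agent.S16.Red_helper26
import Fermat.Agent.S16.A_LowerBound_helper21
import Fermat.Agent.S16.H4BFinal
import Fermat.Agent.S16.FrickeSigma_helper11

set_option autoImplicit false
open ModularCurve CuspForm
open ModularCurve

namespace Fermat.Agent.S16

theorem result
    (p : ℕ) [Fact p.Prime] :
    Nat.card (↥(heckeLatticeAlgebra p ∅) ⧸
        Ideal.map ((latticeRestrictHom p ∅).toRingHom.comp (heckeEvalForms p 2))
          (eisensteinIdeal p)) =
      eisensteinNumerator p := by
  exact H26S16.h26_red' p (H21S16.lowerBound p)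
    (H4S16.h4s16_partB H10S16.h10eis_statement H16S16.h16_B1Statement H11BR.h11w_B2
      H4S16.h4s16_B3)

end Fermat.Agent.S16
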