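import Fermat.Statements.S18
import Fermat.Agent.S18.Asm_helper7
import Fermat.Agent.S18.C2HbFinal_helper19
import Fermat.Agent.S18.C7_helper28

/-!
# S18 (row 17): a torsion point of `J₀(N)` of order prime to `ℓ` with vanishing reduction mod `ℓ`
is zero.

Route Y' (see `NOTES/W2B-S18-helper7-route.md`): Kummer theory of the function field of `X₀(N)`
and the Gauss valuation; the slices are proved in `Fermat/Agent/S18/` by the whole team
(helper1, 2, 4, 7, 9, 12, 16, 18, 19, 21, 27, 28); the assembly is `H7S18.h7s18_asm`.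
-/

set_option autoImplicit false
open ModularCurve

namespace Fermat.Agent.S18

theorem result (N : ℕ) [NeZero N] {ℓ : ℕ}
    [Fact ℓ.Prime] (hℓN : ¬ ℓ ∣ N) (A : ValuationSubring (AlgebraicClosure ℚ)) (hA : A.LiesOverPrime ℓ)
    (h : ModularCurve.ReductionInputsModL A N) (m : ℕ) (hm : ¬ ℓ ∣ m) (z : ModularCurve.JZero N)
    (hmz : m • z = 0) (hz : ModularCurve.reductionModL A N z = 0) :
    z = 0 := by
  exact H7S18.h7s18_asm H19S18.h19_localIdemUnr H28UG.gaussStatement N hℓN A hA h m hm z hmz hz

end Fermat.Agent.S18
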