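-- S20 (row 19): dim S₂(Γ₀(N)) = genusFormula N.
-- T-RR: E1 (helper21) + E2 (helper16) give `≤`; E3 = Riemann-Roch for the function field
-- (RR-alg: helper1, helper11, helper27) + the dictionary to cusp forms (DICT: helper24 et al.)
-- gives `≥`.  Final assembly: helper21 (RR/E1Final.lean), helper2.
import Fermat.Statements.S20
import Fermat.Agent.RR.E1Final
import Fermat.Agent.RR.E3Defs
import Fermat.Agent.RR.DictMain4
import Fermat.Agent.RR.E3Bridge

set_option autoImplicit false
open CuspForm

namespace Fermat.Agent.S20

theorem result (N : ℕ) [NeZero N] :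
    (Module.finrank ℂ (CuspForm (CongruenceSubgroup.Gamma0 N) 2) : ℚ) = ModularCurve.genusFormula N := by
  exact H21E1.S20_of_E3 N (H2E3.genusFormula_le_of N (H24D.dict N) (H2E3.h2e3_bridge N))

end Fermat.Agent.S20
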