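import Fermat.Statements.S22
import Fermat.Agent.S22.Lattice

set_option autoImplicit false
open CuspForm

namespace Fermat.Agent.S22

theorem result (N : ℕ) [NeZero N] (k : ℤ) (S : Set ℕ) :
    Module.Finite ℤ (CuspForm.heckeAlgebra N k S) := by
  rcases le_or_gt k 0 with hk | hk
  · exact H22.finite_heckeAlgebra_of_forall_eq_zero N k S
      (fun f => H22.cuspForm_eq_zero_of_nonpos N hk f)
  rcases eq_or_ne k 1 with rfl | hk1
  · exact H22.finite_heckeAlgebra_of_forall_eq_zero N 1 S
      (fun f => H22.cuspForm_eq_zero_of_odd N odd_one f)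
  obtain ⟨n, rfl⟩ : ∃ n : ℕ, k = (n : ℤ) + 2 := ⟨(k - 2).toNat, by omega⟩
  exact H22.finite_adjoin_heckeGenerators n S

end Fermat.Agent.S22
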