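import Fermat.Statements.S24
import Fermat.Agent.S24.Assembly
import Fermat.Agent.S24.A3a
import Fermat.Agent.S24.A4Final
import Fermat.Agent.S24.BDegreeFinal
import Fermat.Agent.S24.BLocalEll
import Fermat.Agent.S24.BLocalGen
import Fermat.Agent.S24.BLocalInf

set_option autoImplicit false
open ModularCurve

namespace Fermat.Agent.S24

theorem result (N : ℕ) [NeZero N]
    [AlgebraicCurve.HasCanonicalDivisor (K := AlgebraicClosure ℚ) (F := ↥(ModularCurve.modularFunctionFieldBar N))] :
    (AlgebraicCurve.genus (AlgebraicClosure ℚ) ↥(ModularCurve.modularFunctionFieldBar N) : ℚ)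
      = ModularCurve.genusFormula N := by
  haveI : FiniteDimensional (IntermediateField.adjoin RH24.Kbar {RH24.Jbar N})
      (ModularCurve.modularFunctionFieldBar N) := (RH24.B_degree N).1
  refine RH24.h8_genus_eq_of_degree N
    ⟨_, RH24.D_ne_zero (RH24.Jbar N) (RH24.B_transcendental N) (RH24.Jbar N)
      (RH24.B_transcendental N)⟩ ?_
  intro ω hω
  exact RH24.degree_canonical (RH24.Jbar N) (RH24.B_transcendental N) (RH24.B_degree N).2 0 1728
    (by norm_num) _ _ _ (RH24.B_local_zero N) (RH24.B_local_1728 N) (RH24.B_local_infty N)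
    (fun a h0 h1 => RH24.B_local_generic N a h0 h1) hω

end Fermat.Agent.S24
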