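import Fermat.Statements.S28
import Fermat.Agent.S28.ChartDomains
import Fermat.Agent.S28.DegreeBounds
import Fermat.Agent.S28.RQ

/-!
# S28 (Igusa): for `ℓ ∤ N`, the base change of the Igusa model of `X₀(N)` over `ℤ_(ℓ)` to any
field of characteristic `ℓ` is integral.

Elementary route (valuation + `q`-expansion), see `NOTES/S28_plan.md`:
* WP1 (`S28/ModEq/*`): modular equations of prime level (helper23, helper15),
* WP2 (`S28/WP2*`, `HBound`): `[F_N : ℚ(j)] ≤ ψ(N)` (helper10),
* WP3 (`S28/WP3*`): `[𝔽_ℓ(J_d) : 𝔽_ℓ(J)] ≥ ψ(N)` (helper26, helper13, helper18, helper11, helper1),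
* WP4 (`S28/Val`, `BasisLift`, `GaussPoly`, `OInt`, `MinpolyInt`, `RQ`, `Charts`, `ChartDomains`):
  the charts are `ℓ`-saturated in the Gauss valuation ring (helper28, helper13, helper10),
* V7 (`S28/TensorDomain`): the tensor products are domains (helper13),
* WP5 (`S28/Plumbing`): gluing (helper28).
-/

set_option autoImplicit false
open AlgebraicGeometry CategoryTheory CategoryTheory.Limits ModularCurve ModularCurve.IgusaScheme
noncomputable section
set_option autoImplicit false
open ModularCurve ModularCurve.IgusaScheme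

namespace Fermat.Agent.S28

set_option maxHeartbeats 4000000 in
set_option synthInstance.maxHeartbeats 400000 in
theorem result
    (N : ℕ) [NeZero N] (ℓ : ℕ) [Fact ℓ.Prime] (hℓN : ¬ ℓ ∣ N)
    (K : Type) [Field K] [CharP K ℓ] [Algebra ↥(GaloisRep.ratLocalizedAt ℓ) K] :
    IsIntegral ↑(pullback (igusaTo N ℓ)
      (Spec.map (CommRingCat.ofHom (algebraMap ↥(GaloisRep.ratLocalizedAt ℓ) K)))) := by
  have hL : H28S28.DegreeLowerBound N ℓ := H28S28.h10_degreeLowerBound_all N ℓ hℓN
  have hic1 := H28S28.h10_RQ_j_isIntegrallyClosed N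
  have hic2 := H28S28.h10_RQ_jinv_isIntegrallyClosed N
  obtain ⟨h1, h2, h3⟩ := H28S28.h28_three_domains (N := N) (ℓ := ℓ) (H28S28.h10_hbound_all N) hL
    (H28S28.h10_RQ_j_isFractionRing N) (H28S28.h10_RQ_jinv_isFractionRing N) K
  exact Fermat.Agent.H28S28.h28_isIntegral_pullback N ℓ K

end Fermat.Agent.S28
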