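import Fermat.Statements.S37
import Fermat.Agent.S37.R2Final_helper18
import Fermat.Agent.S37.R2UFinal_helper29
import Fermat.Agent.S37.R2U4Done_helper23

/-!
# S37 (row 36): Eichler–Shimura congruence relation, packaged form `SpecializationExists`

Final assembly (item 79).  Wiring: helper8 (`H8S37.h8f_S37`), R2 architect helper18
(`H18R2.h18r2_S37_of`), normality of the special fibre: helper29 (`H29R2M.unifJGood`) and
helper23 (`H23U4.unifJZero`).
-/

set_option autoImplicit false
open ModularCurve

namespace Fermat.Agent.S37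

theorem result (N p : ℕ) [NeZero N] (hcomm : ModularCurve.HeckeOperatorsCommuteBar N) : letI := ModularCurve.heckeModuleBar N; ∀ (_ : SMulCommClass (AlgebraicClosure ℚ ≃ₐ[ℚ] AlgebraicClosure ℚ) ModularCurve.HeckeAlg (ModularCurve.JZero N)), ModularCurve.SpecializationExists (K := ℚ) (L := AlgebraicClosure ℚ) N p (ModularCurve.JZero N) :=
  H18R2.h18r2_S37_of H29R2M.unifJGood H23U4.unifJZero N p hcomm

end Fermat.Agent.S37
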