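import Fermat.Statements.S51
import Fermat.Agent.S51.Param
import Fermat.Agent.S51.Core
import Fermat.Agent.S51.Descent15
import Fermat.Agent.S51.Red3
import Fermat.Agent.S51.Red5

set_option autoImplicit false
open WeierstrassCurve WeierstrassCurve.Affine WeierstrassCurve.Affine.Point
open CuspForm ModularFormClass UpperHalfPlane
open WeierstrassCurve

namespace Fermat.Agent.S51

theorem result (W : WeierstrassCurve ℤ) (hΔ : W.Δ ≠ 0) (hW : W.IsSemistableModel) : W.ModRepIsIrreducible 3 ∨ W.ModRepIsIrreducible 5 := by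
  by_contra hcon
  have h3 : ¬ W.ModRepIsIrreducible 3 := fun h => hcon (Or.inl h)
  have h5 : ¬ W.ModRepIsIrreducible 5 := fun h => hcon (Or.inr h)
  obtain ⟨x₀, hx₀⟩ := Fermat.Agent.H11S51.h11s51_red3 W hΔ h3
  obtain ⟨x₁, x₂, e₁, e₂, hne, he₁, he₂, h₁₂, h₂₁⟩ := Fermat.Agent.H3S51.h3s51_red5 W hΔ h5
  have hΔq : (W.map (Int.castRingHom ℚ)).Δ ≠ 0 := by
    rw [WeierstrassCurve.map_Δ]
    intro h0
    apply hΔ
    have h1 : ((W.Δ : ℤ) : ℚ) = 0 := h0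
    exact_mod_cast h1
  obtain ⟨t, ht, hteq⟩ := Fermat.Agent.H2S51.h2s51_param3 (W.map (Int.castRingHom ℚ)) hΔq x₀ hx₀
  obtain ⟨s, hs, hseq⟩ := Fermat.Agent.H2S51.h2s51_param5 (W.map (Int.castRingHom ℚ)) hΔq x₁ x₂ hne
    e₁ e₂ he₁ he₂ h₁₂ h₂₁
  have hc4 : (W.map (Int.castRingHom ℚ)).c₄ = ((W.c₄ : ℤ) : ℚ) := by
    rw [WeierstrassCurve.map_c₄]; rfl
  have hD : (W.map (Int.castRingHom ℚ)).Δ = ((W.Δ : ℤ) : ℚ) := by
    rw [WeierstrassCurve.map_Δ]; rfl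
  rw [hc4, hD] at hteq hseq
  rw [hD] at hΔq
  have hG : (t + 27) * (t + 3) ^ 3 * s = (s ^ 2 + 10 * s + 5) ^ 3 * t := by
    apply mul_left_cancel₀ hΔq
    linear_combination s * (-hteq) + t * hseq
  have hsval := Fermat.Agent.H10S51.h10s51_core Fermat.Agent.H3S51.h3s51_15a2 t s ht hs hG
  exact Fermat.Agent.H10S51.h10s51_final W.c₄ W.Δ hΔ hW s hsval hseq

end Fermat.Agent.S51
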