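-- S57 (patching descent step), helper29.
import Fermat.Statements.S57
import Fermat.Agent.S57lib.Assembly

set_option autoImplicit false
open Algebra Algebra.PatchingLevel

namespace Fermat.Agent.S57

theorem result
    {𝒪 : Type} [CommRing 𝒪] [IsDomain 𝒪] [IsDiscreteValuationRing 𝒪]
    {r : ℕ} {R : Type} [CommRing R] [Algebra 𝒪 R]
    {M : Type} [AddCommGroup M] [Module R M] [Nontrivial M]
    (L : Algebra.PatchingLevel 𝒪 r R M ⊥) :
    Module.Free R M ∧ Module.annihilator R M = ⊥ ∧
      RingHom.ker L.ψ = Ideal.span (Set.range fun i : Fin r => L.φ (MvPowerSeries.X i)) := by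
  classical
  have hfree := Fermat.Agent.S57lib.free_N L
  have hntN := Fermat.Agent.S57lib.nontrivial_N L
  set I : Ideal (MvPowerSeries (Fin r) 𝒪) :=
    Ideal.span (Set.range fun i : Fin r => L.φ (MvPowerSeries.X i)) with hI
  let B := Module.Free.chooseBasis (MvPowerSeries (Fin r) 𝒪) L.N
  obtain ⟨i₀⟩ : Nonempty (Module.Free.ChooseBasisIndex (MvPowerSeries (Fin r) 𝒪) L.N) :=
    B.index_nonempty
  -- coordinates of elements of `I • ⊤` lie in `I`
  have hrepr : ∀ x : L.N, x ∈ I • (⊤ : Submodule (MvPowerSeries (Fin r) 𝒪) L.N) →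
      ∀ i, B.repr x i ∈ I := by
    intro x hx
    refine Submodule.smul_induction_on hx ?_ ?_
    · intro a ha n _ i
      rw [map_smul, Finsupp.smul_apply, smul_eq_mul]
      exact I.mul_mem_right _ ha
    · intro x y hx hy i
      rw [map_add, Finsupp.add_apply]
      exact I.add_mem (hx i) (hy i)
  have hIker : I ≤ RingHom.ker L.ψ := by
    rw [hI, Ideal.span_le]
    rintro _ ⟨i, rfl⟩
    exact L.ψ_φ_X i
  have hπ0 : L.π 0 = 0 := map_zero L.π
  -- the candidate basis map
  let g : (Module.Free.ChooseBasisIndex (MvPowerSeries (Fin r) 𝒪) L.N →₀ R) →ₗ[R] M :=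
    Finsupp.linearCombination R (fun i => L.π (B i))
  have hπ_sum : ∀ c : Module.Free.ChooseBasisIndex (MvPowerSeries (Fin r) 𝒪) L.N →₀
      MvPowerSeries (Fin r) 𝒪,
      L.π (Finsupp.linearCombination (MvPowerSeries (Fin r) 𝒪) B c) =
        g (c.mapRange L.ψ (map_zero L.ψ)) := by
    intro c
    induction c using Finsupp.induction_linear with
    | zero => simp
    | add c c' hc hc' =>
      rw [map_add, map_add, hc, hc', Finsupp.mapRange_add (fun a b => map_add L.ψ a b), map_add]
    | single i a =>
      rw [Finsupp.linearCombination_single, L.π_smul, Finsupp.mapRange_single,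
        Finsupp.linearCombination_single]
  have hker_of : ∀ c : Module.Free.ChooseBasisIndex (MvPowerSeries (Fin r) 𝒪) L.N →₀
      MvPowerSeries (Fin r) 𝒪,
      L.π (Finsupp.linearCombination (MvPowerSeries (Fin r) 𝒪) B c) = 0 → ∀ i, c i ∈ I := by
    intro c hc i
    have := hrepr _ ((L.ker_π _).mp hc) i
    rwa [B.repr_linearCombination] at this
  have hg_inj : Function.Injective g := by
    rw [← LinearMap.ker_eq_bot, LinearMap.ker_eq_bot']
    intro ρ hρ
    obtain ⟨c, rfl⟩ := Finsupp.mapRange_surjective L.ψ (map_zero L.ψ) L.ψ_surjective ρ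
    rw [← hπ_sum] at hρ
    ext i
    rw [Finsupp.mapRange_apply, Finsupp.zero_apply]
    exact hIker (hker_of c hρ i)
  have hg_surj : Function.Surjective g := by
    intro m
    obtain ⟨x, rfl⟩ := L.π_surjective m
    refine ⟨(B.repr x).mapRange L.ψ (map_zero L.ψ), ?_⟩
    rw [← hπ_sum, B.linearCombination_repr]
  refine ⟨Module.Free.of_equiv (LinearEquiv.ofBijective g ⟨hg_inj, hg_surj⟩), ?_, ?_⟩
  · rw [eq_bot_iff]
    intro a ha
    rw [Submodule.mem_bot]
    have h1 : g (Finsupp.single i₀ a) = 0 := by
      rw [Finsupp.linearCombination_single]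
      exact Module.mem_annihilator.mp ha _
    have h2 := hg_inj (h1.trans (map_zero g).symm)
    simpa using h2
  · apply le_antisymm
    · intro f hf
      have hf' : L.ψ f = 0 := hf
      have h1 : L.π (Finsupp.linearCombination (MvPowerSeries (Fin r) 𝒪) B
          (Finsupp.single i₀ f)) = 0 := by
        rw [Finsupp.linearCombination_single, L.π_smul, hf', zero_smul]
      simpa using hker_of _ h1 i₀
    · exact hIker

end Fermat.Agent.S57
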